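import Mathlib.Tactic
import Fermat.Prelude.Def_FLTPrelim_FreyPackage
import Fermat.Prelude.Def_FLTPrelim_Modularity

/-!
# The integral model of the Frey curve

`P.freyCurveInt` is an integral model of `P.freyCurve`; its discriminant is nonzero, with the
prime divisors of `a b c`, and it is semistable.
-/

set_option autoImplicit false

namespace Fermat.Agent.FreyModel

variable (P : FreyPackage)

lemma a_emod_four : P.a % 4 = 3 := by
  have h := (ZMod.intCast_eq_intCast_iff' P.a 3 4).1 (by simpa using P.ha4)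
  simpa using h

lemma two_dvd_b : (2 : ℤ) ∣ P.b := (ZMod.intCast_zmod_eq_zero_iff_dvd P.b 2).1 P.hb2

/-- `a` is odd. -/
lemma not_two_dvd_a : ¬ (2 : ℤ) ∣ P.a := by
  have := a_emod_four P
  omega

/-- `c` is odd. -/
lemma not_two_dvd_c : ¬ (2 : ℤ) ∣ P.c := by
  intro h
  have h1 : (2 : ℤ) ∣ P.b ^ P.p := dvd_pow (two_dvd_b P) P.hp0
  have h2 : (2 : ℤ) ∣ P.c ^ P.p := dvd_pow h P.hp0
  have h3 : (2 : ℤ) ∣ P.a ^ P.p := by
    have := P.hFLT; omega
  exact not_two_dvd_a P (Int.prime_two.dvd_of_dvd_pow h3)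

/-- `a` and `b` are coprime. -/
lemma isCoprime_a_b : IsCoprime P.a P.b :=
  (gcd_isUnit_iff _ _).1 (by rw [P.hgcdab]; exact isUnit_one)

/-- `32 ∣ b ^ p`, as `b` is even and `p ≥ 5`. -/
lemma thirtyTwo_dvd_pow_b : (32 : ℤ) ∣ P.b ^ P.p :=
  dvd_trans (by norm_num : (32 : ℤ) ∣ 2 ^ 5)
    ((pow_dvd_pow_of_dvd (two_dvd_b P) 5).trans (pow_dvd_pow _ P.hp5))

lemma pow_a_emod_four : P.a ^ P.p % 4 = 3 := by
  obtain ⟨k, hk⟩ := P.hp_odd
  have h : P.a ≡ -1 [ZMOD 4] := by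
    unfold Int.ModEq; rw [a_emod_four P]; norm_num
  have := h.pow P.p
  rw [P.hp_odd.neg_one_pow] at this
  exact this

lemma four_dvd_sub : (4 : ℤ) ∣ P.b ^ P.p - 1 - P.a ^ P.p := by
  have h1 := thirtyTwo_dvd_pow_b P
  have h2 := pow_a_emod_four P
  omega

lemma sixteen_dvd_mul : (16 : ℤ) ∣ -(P.a ^ P.p) * P.b ^ P.p :=
  dvd_mul_of_dvd_right (dvd_trans (by norm_num) (thirtyTwo_dvd_pow_b P)) _

/-- `4 a₂ = b ^ p - 1 - a ^ p` in the integral model. -/
lemma four_mul_a₂ : 4 * P.freyCurveInt.a₂ = P.b ^ P.p - 1 - P.a ^ P.p :=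
  Int.mul_ediv_cancel' (four_dvd_sub P)

/-- `16 a₄ = -a ^ p b ^ p` in the integral model. -/
lemma sixteen_mul_a₄ : 16 * P.freyCurveInt.a₄ = -(P.a ^ P.p) * P.b ^ P.p :=
  Int.mul_ediv_cancel' (sixteen_dvd_mul P)

/-- The rational Frey curve is the base change of the integral one. -/
theorem map_freyCurveInt : P.freyCurveInt.map (Int.castRingHom ℚ) = P.freyCurve := by
  ext <;> simp only [FreyPackage.freyCurveInt, FreyPackage.freyCurve, WeierstrassCurve.map,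
    eq_intCast, Int.cast_one, Int.cast_zero]
  · rw [Int.cast_div (four_dvd_sub P) (by norm_num)]; norm_num
  · rw [Int.cast_div (sixteen_dvd_mul P) (by norm_num)]; norm_num

/-- `P.freyCurveInt` is an integral model of the Frey curve. -/
theorem freyCurveInt_isIntegralModelOf : P.freyCurveInt.IsIntegralModelOf P.freyCurve :=
  ⟨1, by rw [one_smul, map_freyCurveInt]⟩

/-- `2 ^ 8 * Δ = (abc) ^ (2p)`. -/
theorem freyCurveInt_Δ : 256 * P.freyCurveInt.Δ = ((P.a * P.b * P.c) ^ P.p) ^ 2 := by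
  have h2 := four_mul_a₂ P
  have h4 := sixteen_mul_a₄ P
  have e : ∀ s t : ℤ, (1 + 4 * s) ^ 2 - 64 * t = (1 + 4 * s) ^ 2 - 4 * (16 * t) := by
    intro s t; ring
  have hb : P.freyCurveInt.Δ
      = P.freyCurveInt.a₄ ^ 2 * ((1 + 4 * P.freyCurveInt.a₂) ^ 2 - 64 * P.freyCurveInt.a₄) := by
    simp only [WeierstrassCurve.Δ, WeierstrassCurve.b₂, WeierstrassCurve.b₄, WeierstrassCurve.b₆,
      WeierstrassCurve.b₈, show P.freyCurveInt.a₁ = 1 from rfl,
      show P.freyCurveInt.a₃ = 0 from rfl, show P.freyCurveInt.a₆ = 0 from rfl]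
    ring
  rw [hb, e, mul_pow, mul_pow, ← P.hFLT,
    show (256 : ℤ) * (P.freyCurveInt.a₄ ^ 2 *
      ((1 + 4 * P.freyCurveInt.a₂) ^ 2 - 4 * (16 * P.freyCurveInt.a₄))) =
      (16 * P.freyCurveInt.a₄) ^ 2 *
      ((1 + 4 * P.freyCurveInt.a₂) ^ 2 - 4 * (16 * P.freyCurveInt.a₄)) by ring, h2, h4]
  ring

/-- `c₄ = a^(2p) + a^p b^p + b^(2p)`. -/
theorem freyCurveInt_c₄ :
    P.freyCurveInt.c₄ = (P.a ^ P.p) ^ 2 + P.a ^ P.p * P.b ^ P.p + (P.b ^ P.p) ^ 2 := by
  have h2 := four_mul_a₂ P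
  have h4 := sixteen_mul_a₄ P
  have hb : P.freyCurveInt.c₄
      = (1 + 4 * P.freyCurveInt.a₂) ^ 2 - 3 * (16 * P.freyCurveInt.a₄) := by
    simp only [WeierstrassCurve.c₄, WeierstrassCurve.b₂, WeierstrassCurve.b₄,
      show P.freyCurveInt.a₁ = 1 from rfl, show P.freyCurveInt.a₃ = 0 from rfl]
    ring
  rw [hb, h2, h4]; ring

/-- The integral Frey curve is nonsingular over `ℚ`. -/
theorem freyCurveInt_Δ_ne_zero : P.freyCurveInt.Δ ≠ 0 := by
  intro h
  have := freyCurveInt_Δ P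
  rw [h, mul_zero] at this
  exact pow_ne_zero _ (pow_ne_zero _ P.habc0) this.symm

/-- A prime dividing the discriminant divides `abc`. -/
theorem dvd_abc_of_dvd_Δ {q : ℕ} (hq : q.Prime) (h : (q : ℤ) ∣ P.freyCurveInt.Δ) :
    (q : ℤ) ∣ P.a * P.b * P.c := by
  have hq' := Nat.prime_iff_prime_int.1 hq
  have := dvd_mul_of_dvd_right h 256
  rw [freyCurveInt_Δ] at this
  exact hq'.dvd_of_dvd_pow (hq'.dvd_of_dvd_pow this)

/-- The discriminant of the integral Frey curve is even. -/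
theorem two_dvd_freyCurveInt_Δ : (2 : ℤ) ∣ P.freyCurveInt.Δ := by
  have h1 : (2 : ℤ) ^ 10 ∣ ((P.a * P.b * P.c) ^ P.p) ^ 2 := by
    rw [← pow_mul]
    exact (pow_dvd_pow_of_dvd P.two_dvd_abc 10).trans (pow_dvd_pow _ (by have := P.hp5; omega))
  rw [← freyCurveInt_Δ] at h1
  omega

/-- The bad primes of the integral Frey curve are the prime divisors of `abc`. -/
theorem dvd_freyCurveInt_Δ_iff {q : ℕ} (hq : q.Prime) :
    (q : ℤ) ∣ P.freyCurveInt.Δ ↔ (q : ℤ) ∣ P.a * P.b * P.c := by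
  refine ⟨dvd_abc_of_dvd_Δ P hq, fun h => ?_⟩
  rcases eq_or_ne q 2 with rfl | hne
  · exact_mod_cast two_dvd_freyCurveInt_Δ P
  · have hq' := Nat.prime_iff_prime_int.1 hq
    have h1 : (q : ℤ) ∣ ((P.a * P.b * P.c) ^ P.p) ^ 2 := dvd_pow (dvd_pow h P.hp0) two_ne_zero
    rw [← freyCurveInt_Δ] at h1
    refine (hq'.dvd_mul.1 h1).resolve_left fun h256 => hne ?_
    have h2 : q ∣ 2 ^ 8 := by norm_num; exact_mod_cast h256
    exact (Nat.prime_dvd_prime_iff_eq hq Nat.prime_two).1 (hq.dvd_of_dvd_pow h2)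

/-- The integral Frey curve is semistable: no prime divides both `Δ` and `c₄`. -/
theorem freyCurveInt_isSemistableModel : P.freyCurveInt.IsSemistableModel := by
  intro q hq hΔ hc4
  have hq' := Nat.prime_iff_prime_int.1 hq
  have hab : IsCoprime (P.a ^ P.p) (P.b ^ P.p) := (isCoprime_a_b P).pow
  rw [freyCurveInt_c₄] at hc4
  have hnot : (q : ℤ) ∣ P.a ^ P.p → (q : ℤ) ∣ P.b ^ P.p → False := fun ha hb =>
    hq'.not_isUnit (hab.isUnit_of_dvd' ha hb)
  rcases hq'.dvd_mul.1 (dvd_abc_of_dvd_Δ P hq hΔ) with hab' | hc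
  · rcases hq'.dvd_mul.1 hab' with ha | hb
    · have ha' : (q : ℤ) ∣ P.a ^ P.p := dvd_pow ha P.hp0
      refine hnot ha' (hq'.dvd_of_dvd_pow (n := 2) ?_)
      have := dvd_mul_of_dvd_left ha' (P.a ^ P.p + P.b ^ P.p)
      convert dvd_sub hc4 this using 1; ring
    · have hb' : (q : ℤ) ∣ P.b ^ P.p := dvd_pow hb P.hp0
      refine hnot (hq'.dvd_of_dvd_pow (n := 2) ?_) hb'
      have := dvd_mul_of_dvd_left hb' (P.a ^ P.p + P.b ^ P.p)
      convert dvd_sub hc4 this using 1; ring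
  · have hs : (q : ℤ) ∣ P.a ^ P.p + P.b ^ P.p := by rw [P.hFLT]; exact dvd_pow hc P.hp0
    have h : (q : ℤ) ∣ P.a ^ P.p * P.b ^ P.p := by
      rw [show P.a ^ P.p * P.b ^ P.p = (P.a ^ P.p + P.b ^ P.p) * (P.a ^ P.p + P.b ^ P.p) -
        ((P.a ^ P.p) ^ 2 + P.a ^ P.p * P.b ^ P.p + (P.b ^ P.p) ^ 2) by ring]
      exact dvd_sub (dvd_mul_of_dvd_left hs _) hc4
    rcases hq'.dvd_mul.1 h with ha | hb
    · exact hnot ha (by simpa using dvd_sub hs ha)
    · exact hnot (by simpa using dvd_sub hs hb) hb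

/-- If every semistable integral model defines a modular curve, the Frey curve is modular. -/
theorem freyCurve_isModular_of_semistable
    (h : ∀ W : WeierstrassCurve ℤ, W.Δ ≠ 0 → W.IsSemistableModel →
      (W.map (Int.castRingHom ℚ)).IsModular) :
    P.freyCurve.IsModular := by
  rw [← map_freyCurveInt]
  exact h _ (freyCurveInt_Δ_ne_zero P) (freyCurveInt_isSemistableModel P)

end Fermat.Agent.FreyModel
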